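import Mathlib

/-!
# Program MW (statement S17), strand H, block B0: local constants of product type

For a field `K`, an absolute value `v` on `K`, a real number `c` and a multiset `Γ` of
elements of `K`, the *local constant* is

`locConst c Γ v = (1 if v is nonarchimedean, c otherwise) * ∏ γ ∈ Γ, max 1 (v γ)`.

A family of bounds `A v ≤ locConst c Γ v * B v` for all absolute values `v` of a number field is
exactly what the product formula can sum: the factor `c` occurs at the archimedean places only
and the product is the contribution of `v` to the (affine) heights of the numbers in `Γ`.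

This file is Mathlib-only.  It contains the calculus of these constants and the basic local
bound for the value of a homogeneous polynomial.
-/

set_option autoImplicit false

namespace Fermat.Agent.S17.H.Cert

open MvPolynomial

variable {K : Type*} [Field K]

/-- The product part of a local constant: `∏ γ ∈ Γ, max 1 (v γ)`. -/
noncomputable def gamProd (Γ : Multiset K) (v : AbsoluteValue K ℝ) : ℝ :=
  (Γ.map fun γ => max 1 (v γ)).prod

open Classical in
/-- A local constant of product type: `c` at the archimedean absolute values, times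
`∏ γ ∈ Γ, max 1 (v γ)`. -/
noncomputable def locConst (c : ℝ) (Γ : Multiset K) (v : AbsoluteValue K ℝ) : ℝ :=
  (if IsNonarchimedean v then (1 : ℝ) else c) * gamProd Γ v

@[simp]
theorem gamProd_zero (v : AbsoluteValue K ℝ) : gamProd (0 : Multiset K) v = 1 := by
  simp [gamProd]

theorem gamProd_cons (γ : K) (Γ : Multiset K) (v : AbsoluteValue K ℝ) :
    gamProd (γ ::ₘ Γ) v = max 1 (v γ) * gamProd Γ v := by
  simp [gamProd]

theorem gamProd_add (Γ Γ' : Multiset K) (v : AbsoluteValue K ℝ) :
    gamProd (Γ + Γ') v = gamProd Γ v * gamProd Γ' v := by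
  unfold gamProd
  rw [Multiset.map_add, Multiset.prod_add]

theorem one_le_gamProd (Γ : Multiset K) (v : AbsoluteValue K ℝ) : 1 ≤ gamProd Γ v := by
  induction Γ using Multiset.induction_on with
  | empty => simp
  | cons a s ih =>
    rw [gamProd_cons]
    exact one_le_mul_of_one_le_of_one_le (le_max_left _ _) ih

theorem gamProd_pos (Γ : Multiset K) (v : AbsoluteValue K ℝ) : 0 < gamProd Γ v :=
  lt_of_lt_of_le zero_lt_one (one_le_gamProd Γ v)

theorem gamProd_mono {Γ Γ' : Multiset K} (h : Γ ≤ Γ') (v : AbsoluteValue K ℝ) :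
    gamProd Γ v ≤ gamProd Γ' v := by
  obtain ⟨Δ, rfl⟩ := Multiset.le_iff_exists_add.mp h
  rw [gamProd_add]
  exact le_mul_of_one_le_right (gamProd_pos Γ v).le (one_le_gamProd Δ v)

theorem le_gamProd_of_mem {Γ : Multiset K} {γ : K} (h : γ ∈ Γ) (v : AbsoluteValue K ℝ) :
    v γ ≤ gamProd Γ v := by
  obtain ⟨Δ, rfl⟩ := Multiset.exists_cons_of_mem h
  rw [gamProd_cons]
  calc v γ ≤ max 1 (v γ) := le_max_right _ _
    _ ≤ max 1 (v γ) * gamProd Δ v :=
      le_mul_of_one_le_right (le_trans zero_le_one (le_max_left _ _)) (one_le_gamProd Δ v)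

theorem gamProd_nsmul (n : ℕ) (Γ : Multiset K) (v : AbsoluteValue K ℝ) :
    gamProd (n • Γ) v = gamProd Γ v ^ n := by
  induction n with
  | zero => simp
  | succ n ih => rw [succ_nsmul, gamProd_add, ih, pow_succ]

theorem locConst_of_nonarch {v : AbsoluteValue K ℝ} (hv : IsNonarchimedean v) (c : ℝ)
    (Γ : Multiset K) : locConst c Γ v = gamProd Γ v := by
  unfold locConst
  rw [if_pos hv, one_mul]

theorem locConst_of_not_nonarch {v : AbsoluteValue K ℝ} (hv : ¬ IsNonarchimedean v) (c : ℝ)
    (Γ : Multiset K) : locConst c Γ v = c * gamProd Γ v := by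
  unfold locConst
  rw [if_neg hv]

/-- In every case the local constant is at most `c * ∏ max 1 (v γ)` (if `1 ≤ c`). -/
theorem locConst_le {c : ℝ} (hc : 1 ≤ c) (Γ : Multiset K) (v : AbsoluteValue K ℝ) :
    locConst c Γ v ≤ c * gamProd Γ v := by
  by_cases hv : IsNonarchimedean v
  · rw [locConst_of_nonarch hv]
    exact le_mul_of_one_le_left (gamProd_pos Γ v).le hc
  · rw [locConst_of_not_nonarch hv]

theorem gamProd_le_locConst {c : ℝ} (hc : 1 ≤ c) (Γ : Multiset K) (v : AbsoluteValue K ℝ) :
    gamProd Γ v ≤ locConst c Γ v := by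
  by_cases hv : IsNonarchimedean v
  · rw [locConst_of_nonarch hv]
  · rw [locConst_of_not_nonarch hv]
    exact le_mul_of_one_le_left (gamProd_pos Γ v).le hc

theorem one_le_locConst {c : ℝ} (hc : 1 ≤ c) (Γ : Multiset K) (v : AbsoluteValue K ℝ) :
    1 ≤ locConst c Γ v :=
  le_trans (one_le_gamProd Γ v) (gamProd_le_locConst hc Γ v)

theorem locConst_pos {c : ℝ} (hc : 1 ≤ c) (Γ : Multiset K) (v : AbsoluteValue K ℝ) :
    0 < locConst c Γ v :=
  lt_of_lt_of_le zero_lt_one (one_le_locConst hc Γ v)

theorem locConst_nonneg {c : ℝ} (hc : 0 ≤ c) (Γ : Multiset K) (v : AbsoluteValue K ℝ) :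
    0 ≤ locConst c Γ v := by
  by_cases hv : IsNonarchimedean v
  · rw [locConst_of_nonarch hv]
    exact (gamProd_pos Γ v).le
  · rw [locConst_of_not_nonarch hv]
    exact mul_nonneg hc (gamProd_pos Γ v).le

/-- Local constants multiply. -/
theorem locConst_mul (c c' : ℝ) (Γ Γ' : Multiset K) (v : AbsoluteValue K ℝ) :
    locConst c Γ v * locConst c' Γ' v = locConst (c * c') (Γ + Γ') v := by
  by_cases hv : IsNonarchimedean v
  · simp only [locConst_of_nonarch hv, gamProd_add]
  · simp only [locConst_of_not_nonarch hv, gamProd_add]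
    ring

theorem locConst_mono {c c' : ℝ} (hc : 0 ≤ c) (hcc : c ≤ c') {Γ Γ' : Multiset K} (h : Γ ≤ Γ')
    (v : AbsoluteValue K ℝ) : locConst c Γ v ≤ locConst c' Γ' v := by
  by_cases hv : IsNonarchimedean v
  · simp only [locConst_of_nonarch hv]
    exact gamProd_mono h v
  · simp only [locConst_of_not_nonarch hv]
    exact mul_le_mul hcc (gamProd_mono h v) (gamProd_pos Γ v).le (le_trans hc hcc)

theorem locConst_pow (c : ℝ) (Γ : Multiset K) (v : AbsoluteValue K ℝ) (n : ℕ) :
    locConst c Γ v ^ n = locConst (c ^ n) (n • Γ) v := by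
  by_cases hv : IsNonarchimedean v
  · simp only [locConst_of_nonarch hv, gamProd_nsmul]
  · simp only [locConst_of_not_nonarch hv, gamProd_nsmul, mul_pow]

/-- The local constant with empty `Γ`: `1` or `c`. -/
theorem locConst_zero_le {c : ℝ} (hc : 1 ≤ c) (v : AbsoluteValue K ℝ) :
    locConst c (0 : Multiset K) v ≤ c := by
  have h := locConst_le hc (0 : Multiset K) v
  rwa [gamProd_zero, mul_one] at h

section Polynomials

variable {ι : Type*}

/-- The multiset of the (nonzero) coefficients of a polynomial. -/
noncomputable def coeffMS (p : MvPolynomial ι K) : Multiset K :=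
  p.support.val.map fun s => p.coeff s

theorem coeff_mem_coeffMS {p : MvPolynomial ι K} {s : ι →₀ ℕ} (hs : s ∈ p.support) :
    p.coeff s ∈ coeffMS p :=
  Multiset.mem_map_of_mem _ hs

variable {α : Type*} [Fintype α]

/-- The multiset of all coefficients of a finite family of polynomials. -/
noncomputable def famCoeffs (q : α → MvPolynomial ι K) : Multiset K :=
  ∑ a, coeffMS (q a)

/-- One plus the total number of monomials of a finite family of polynomials. -/
noncomputable def monoCount (q : α → MvPolynomial ι K) : ℝ :=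
  1 + ∑ a, ((q a).support.card : ℝ)

theorem one_le_monoCount (q : α → MvPolynomial ι K) : 1 ≤ monoCount q := by
  unfold monoCount
  have : (0 : ℝ) ≤ ∑ a, ((q a).support.card : ℝ) := Finset.sum_nonneg fun a _ => Nat.cast_nonneg _
  linarith

theorem card_support_le_monoCount (q : α → MvPolynomial ι K) (a : α) :
    ((q a).support.card : ℝ) ≤ monoCount q := by
  unfold monoCount
  have h : ((q a).support.card : ℝ) ≤ ∑ a, ((q a).support.card : ℝ) :=
    Finset.single_le_sum (f := fun a => ((q a).support.card : ℝ))
      (fun a _ => Nat.cast_nonneg _) (Finset.mem_univ a)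
  linarith

theorem coeffMS_le_famCoeffs (q : α → MvPolynomial ι K) (a : α) :
    coeffMS (q a) ≤ famCoeffs q :=
  Finset.single_le_sum (f := fun a => coeffMS (q a)) (fun _ _ => Multiset.zero_le _) (Finset.mem_univ a)

theorem coeff_mem_famCoeffs (q : α → MvPolynomial ι K) (a : α) {s : ι →₀ ℕ}
    (hs : s ∈ (q a).support) : (q a).coeff s ∈ famCoeffs q :=
  Multiset.mem_of_le (coeffMS_le_famCoeffs q a) (coeff_mem_coeffMS hs)

/-- The sum of the absolute values of the coefficients is at most
`(number of monomials) * ∏ max 1 (v coefficient)`. -/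
theorem sum_abv_coeff_le (v : AbsoluteValue K ℝ) (p : MvPolynomial ι K) :
    ∑ s ∈ p.support, v (p.coeff s) ≤ (p.support.card : ℝ) * gamProd (coeffMS p) v := by
  calc ∑ s ∈ p.support, v (p.coeff s) ≤ ∑ _s ∈ p.support, gamProd (coeffMS p) v :=
        Finset.sum_le_sum fun s hs => le_gamProd_of_mem (coeff_mem_coeffMS hs) v
    _ = (p.support.card : ℝ) * gamProd (coeffMS p) v := by
        rw [Finset.sum_const, nsmul_eq_mul]

variable [Finite ι]

/-- **Local bound for the value of a homogeneous polynomial**, with a constant of product type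
depending only on the family the polynomial belongs to. -/
theorem abv_eval_le (v : AbsoluteValue K ℝ) (q : α → MvPolynomial ι K) (a : α) {M : ℕ}
    (hq : (q a).IsHomogeneous M) (x : ι → K) :
    v ((q a).eval x) ≤ locConst (monoCount q) (famCoeffs q) v * (⨆ i, v (x i)) ^ M := by
  have hS : 0 ≤ (⨆ i, v (x i)) ^ M :=
    pow_nonneg (Real.iSup_nonneg fun i => v.nonneg _) M
  by_cases hv : IsNonarchimedean v
  · rw [locConst_of_nonarch hv]
    refine le_trans (hv.eval_mvPolynomial_le hq x) ?_
    refine mul_le_mul_of_nonneg_right ?_ hS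
    refine le_trans ?_ (gamProd_mono (coeffMS_le_famCoeffs q a) v)
    rcases isEmpty_or_nonempty (q a).support with he | hne
    · rw [Real.iSup_of_isEmpty]
      exact (gamProd_pos _ v).le
    · exact ciSup_le fun s => le_gamProd_of_mem (coeff_mem_coeffMS s.2) v
  · rw [locConst_of_not_nonarch hv]
    refine le_trans (v.eval_mvPolynomial_le hq x) ?_
    refine mul_le_mul_of_nonneg_right ?_ hS
    have h1 : (AddMonoidAlgebra.coeff (q a)).sum (fun _ c => v c)
        = ∑ s ∈ (q a).support, v ((q a).coeff s) := rfl
    rw [h1]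
    refine le_trans (sum_abv_coeff_le v (q a)) ?_
    exact mul_le_mul (card_support_le_monoCount q a) (gamProd_mono (coeffMS_le_famCoeffs q a) v)
      (gamProd_pos _ v).le (le_trans zero_le_one (one_le_monoCount q))

/-- **Local bound for a finite sum**: the constant is the number of terms at the archimedean
absolute values and `1` otherwise. -/
theorem abv_sum_le (v : AbsoluteValue K ℝ) (f : α → K) :
    v (∑ a, f a) ≤ locConst (Fintype.card α) (0 : Multiset K) v * ⨆ a, v (f a) := by
  by_cases hv : IsNonarchimedean v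
  · rw [locConst_of_nonarch hv, gamProd_zero, one_mul]
    exact hv.apply_sum_univ_le
  · rw [locConst_of_not_nonarch hv, gamProd_zero, mul_one]
    calc v (∑ a, f a) ≤ ∑ a, v (f a) := v.sum_le _ _
      _ ≤ ∑ _a : α, ⨆ a, v (f a) :=
          Finset.sum_le_sum fun a _ => Finite.le_ciSup (fun a => v (f a)) a
      _ = (Fintype.card α : ℝ) * ⨆ a, v (f a) := by
          rw [Finset.sum_const, Finset.card_univ, nsmul_eq_mul]

end Polynomials

end Fermat.Agent.S17.H.Cert
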