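import Fermat.Agent.S17.H.Cert.LocConst

/-!
# Program MW (statement S17), strand H, block B2: a certificate gives a local two-sided bound

Mathlib only.  `K` is any field and `v` any absolute value on `K`.

* `cert_upper`: forms `p j` of degree `N` satisfy
  `⨆ j, v (p j (x)) ≤ locConst .. * (⨆ i, v (x i)) ^ N` at every vector `x`.
* `cert_lower`: if at the vector `x ≠ 0` there is a certificate
  `∑ j, q (k, j) (x) * p j (x) = x k ^ (M + N)` for every `k` (forms `q (k, j)` of degree `M`), then
  `(⨆ i, v (x i)) ^ N ≤ locConst .. * ⨆ j, v (p j (x))`.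

The hypothesis of `cert_lower` is an identity at the point `x`: it is what the projective
Nullstellensatz certificate of block B1 gives on a closed cone, and it is literally the
hypothesis of Mathlib's `Height.mulHeight_eval_ge`.
-/

set_option autoImplicit false

namespace Fermat.Agent.S17.H.Cert

open MvPolynomial

variable {K : Type*} [Field K] {ι ι' : Type*} [Fintype ι] [Fintype ι']

/-- **Upper bound**: the values of forms of degree `N` at `x` are bounded by the `N`-th power
of the size of `x`. -/
theorem cert_upper (v : AbsoluteValue K ℝ) {N : ℕ} {p : ι' → MvPolynomial ι K}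
    (hp : ∀ j, (p j).IsHomogeneous N) (x : ι → K) :
    ⨆ j, v ((p j).eval x) ≤ locConst (monoCount p) (famCoeffs p) v * (⨆ i, v (x i)) ^ N :=
  Real.iSup_le (fun j => abv_eval_le v p j (hp j) x)
    (mul_nonneg (locConst_pos (one_le_monoCount p) _ v).le
      (pow_nonneg (Real.iSup_nonneg fun _ => v.nonneg _) N))

/-- **Lower bound from a certificate** at the point `x`. -/
theorem cert_lower (v : AbsoluteValue K ℝ) {M N : ℕ} {q : ι × ι' → MvPolynomial ι K}
    (hq : ∀ a, (q a).IsHomogeneous M) (p : ι' → MvPolynomial ι K) {x : ι → K} (hx : x ≠ 0)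
    (h : ∀ k, ∑ j, (q (k, j)).eval x * (p j).eval x = x k ^ (M + N)) :
    (⨆ i, v (x i)) ^ N
      ≤ locConst (Fintype.card ι' * monoCount q) (famCoeffs q) v * ⨆ j, v ((p j).eval x) := by
  -- a coordinate of maximal absolute value
  obtain ⟨k₀, hk₀⟩ : ∃ k, x k ≠ 0 := by
    by_contra hcon
    rw [not_exists] at hcon
    exact hx (funext fun k => not_not.mp (hcon k))
  have : Nonempty ι := ⟨k₀⟩
  obtain ⟨k, hk⟩ := exists_eq_ciSup_of_finite (f := fun i => v (x i))
  have hk' : v (x k) = ⨆ i, v (x i) := hk
  have hSpos : 0 < ⨆ i, v (x i) :=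
    lt_of_lt_of_le (v.pos hk₀) (Finite.le_ciSup (fun i => v (x i)) k₀)
  set S := ⨆ i, v (x i) with hSdef
  set T := ⨆ j, v ((p j).eval x) with hTdef
  have hT : 0 ≤ T := Real.iSup_nonneg fun _ => v.nonneg _
  have hmc : 1 ≤ monoCount q := one_le_monoCount q
  have hA : 0 ≤ locConst (monoCount q) (famCoeffs q) v * S ^ M :=
    mul_nonneg (locConst_pos hmc _ v).le (pow_nonneg hSpos.le M)
  -- the terms of the certificate
  have hterm : ∀ j, v ((q (k, j)).eval x * (p j).eval x)
      ≤ locConst (monoCount q) (famCoeffs q) v * S ^ M * T := by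
    intro j
    rw [map_mul]
    exact mul_le_mul (abv_eval_le v q (k, j) (hq (k, j)) x)
      (Finite.le_ciSup (fun j => v ((p j).eval x)) j) (v.nonneg _) hA
  have h1 : S ^ (M + N)
      ≤ locConst (Fintype.card ι') (0 : Multiset K) v
        * (locConst (monoCount q) (famCoeffs q) v * S ^ M * T) := by
    calc S ^ (M + N) = v (x k ^ (M + N)) := by rw [map_pow, hk']
      _ = v (∑ j, (q (k, j)).eval x * (p j).eval x) := by rw [h k]
      _ ≤ locConst (Fintype.card ι') (0 : Multiset K) v
            * ⨆ j, v ((q (k, j)).eval x * (p j).eval x) := abv_sum_le v _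
      _ ≤ locConst (Fintype.card ι') (0 : Multiset K) v
            * (locConst (monoCount q) (famCoeffs q) v * S ^ M * T) :=
          mul_le_mul_of_nonneg_left (Real.iSup_le hterm (mul_nonneg hA hT))
            (locConst_nonneg (Nat.cast_nonneg _) _ v)
  have h2 : locConst (Fintype.card ι') (0 : Multiset K) v
        * (locConst (monoCount q) (famCoeffs q) v * S ^ M * T)
      = S ^ M * (locConst (Fintype.card ι' * monoCount q) (famCoeffs q) v * T) := by
    have e := locConst_mul (Fintype.card ι' : ℝ) (monoCount q) (0 : Multiset K) (famCoeffs q) v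
    rw [zero_add] at e
    rw [← e]
    ring
  rw [h2, pow_add] at h1
  exact le_of_mul_le_mul_left h1 (pow_pos hSpos M)

/-- The two bounds together. -/
theorem cert_two_sided (v : AbsoluteValue K ℝ) {M N : ℕ} {q : ι × ι' → MvPolynomial ι K}
    (hq : ∀ a, (q a).IsHomogeneous M) {p : ι' → MvPolynomial ι K}
    (hp : ∀ j, (p j).IsHomogeneous N) {x : ι → K} (hx : x ≠ 0)
    (h : ∀ k, ∑ j, (q (k, j)).eval x * (p j).eval x = x k ^ (M + N)) :
    (⨆ i, v (x i)) ^ N
        ≤ locConst (Fintype.card ι' * monoCount q) (famCoeffs q) v * ⨆ j, v ((p j).eval x) ∧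
      ⨆ j, v ((p j).eval x) ≤ locConst (monoCount p) (famCoeffs p) v * (⨆ i, v (x i)) ^ N :=
  ⟨cert_lower v hq p hx h, cert_upper v hp x⟩

end Fermat.Agent.S17.H.Cert
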