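import Fermat.Agent.S17.H.Cert.LocConst

/-!
# Program MW (statement S17), strand H, block B3: integral relations give local bounds

Mathlib only.  `K` is any field and `v` any absolute value on `K`.

* `abv_le_of_monic_rel` (root bound): if `u ^ d + ∑ b i * u ^ (d - 1 - i) = 0` and
  `v (b i) ≤ B ^ (i + 1)`, then `v u ≤ 2 * B`, and `v u ≤ B` if `v` is nonarchimedean.
* `abv_le_of_integral_rel`: the coefficients are values of forms of degree `i + 1` at a
  vector `w`; then `v u ≤ locConst .. * ⨆ i, v (w i)`.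
* `abv_le_of_weighted_rel` (leaf K3 of block C): `f k ^ e * g ^ d + ∑ A i (f) * g ^ (d - 1 - i) = 0`
  with `A i` a form of degree `e + j * (i + 1)` and `v (f k)` maximal: `v g ≤ locConst .. * v (f k) ^ j`.
* `abv_le_of_homog_rel`: the case `j = 1`.

The constants are of the product type of `LocConst.lean`: a combinatorial factor at the
archimedean absolute values only, times `∏ max 1 (v γ)` over the coefficients of the relation.
-/

set_option autoImplicit false

namespace Fermat.Agent.S17.H.Cert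

open MvPolynomial

variable {K : Type*} [Field K]

/-- The elementary inequality behind the root bound. -/
theorem sum_range_pow_mul_pow_le {B U : ℝ} (hB : 0 ≤ B) (hU : 2 * B ≤ U) (d : ℕ) :
    ∑ i ∈ Finset.range d, B ^ (i + 1) * U ^ (d - 1 - i) ≤ U ^ d - B ^ d := by
  induction d with
  | zero => simp
  | succ d ih =>
    rw [Finset.sum_range_succ]
    have hU0 : 0 ≤ U := by linarith
    have h1 : ∑ i ∈ Finset.range d, B ^ (i + 1) * U ^ (d + 1 - 1 - i)
        = U * ∑ i ∈ Finset.range d, B ^ (i + 1) * U ^ (d - 1 - i) := by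
      rw [Finset.mul_sum]
      refine Finset.sum_congr rfl fun i hi => ?_
      have hi' : i < d := Finset.mem_range.mp hi
      have hexp : d + 1 - 1 - i = (d - 1 - i) + 1 := by omega
      rw [hexp, pow_succ]
      ring
    rw [h1]
    have h2 : d + 1 - 1 - d = 0 := by omega
    rw [h2, pow_zero, mul_one]
    have h3 : U * ∑ i ∈ Finset.range d, B ^ (i + 1) * U ^ (d - 1 - i) ≤ U * (U ^ d - B ^ d) :=
      mul_le_mul_of_nonneg_left ih hU0
    have h4 : 0 ≤ B ^ d := pow_nonneg hB d
    have h5 : 0 ≤ B ^ d * (U - 2 * B) := mul_nonneg h4 (by linarith)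
    have h6 : B ^ (d + 1) = B ^ d * B := pow_succ B d
    have h7 : U ^ (d + 1) = U ^ d * U := pow_succ U d
    rw [h6, h7]
    nlinarith [h3, h5]

/-- **Root bound** at an arbitrary absolute value. -/
theorem abv_le_of_monic_rel (v : AbsoluteValue K ℝ) {d : ℕ} (b : Fin d → K) (u : K) {B : ℝ}
    (hB : 0 ≤ B) (hb : ∀ i, v (b i) ≤ B ^ (i.val + 1))
    (h : u ^ d + ∑ i : Fin d, b i * u ^ (d - 1 - i.val) = 0) : v u ≤ 2 * B := by
  by_contra hcon
  rw [not_le] at hcon
  have hU0 : 0 < v u := lt_of_le_of_lt (by positivity) hcon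
  have hud : u ^ d = -∑ i : Fin d, b i * u ^ (d - 1 - i.val) := eq_neg_of_add_eq_zero_left h
  have h1 : v u ^ d ≤ ∑ i : Fin d, B ^ (i.val + 1) * v u ^ (d - 1 - i.val) := by
    calc v u ^ d = v (u ^ d) := (map_pow v u d).symm
      _ = v (∑ i : Fin d, b i * u ^ (d - 1 - i.val)) := by rw [hud, v.map_neg]
      _ ≤ ∑ i : Fin d, v (b i * u ^ (d - 1 - i.val)) := v.sum_le _ _
      _ ≤ ∑ i : Fin d, B ^ (i.val + 1) * v u ^ (d - 1 - i.val) := by
        refine Finset.sum_le_sum fun i _ => ?_
        rw [map_mul, map_pow]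
        exact mul_le_mul_of_nonneg_right (hb i) (pow_nonneg hU0.le _)
  have h2 : ∑ i : Fin d, B ^ (i.val + 1) * v u ^ (d - 1 - i.val)
      = ∑ i ∈ Finset.range d, B ^ (i + 1) * v u ^ (d - 1 - i) :=
    Fin.sum_univ_eq_sum_range (fun i => B ^ (i + 1) * v u ^ (d - 1 - i)) d
  have h3 := sum_range_pow_mul_pow_le hB hcon.le d
  rcases hB.eq_or_lt with hB0 | hBpos
  · -- `B = 0`: all the terms vanish
    have h4 : ∑ i : Fin d, B ^ (i.val + 1) * v u ^ (d - 1 - i.val) = 0 := by
      refine Finset.sum_eq_zero fun i _ => ?_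
      rw [← hB0, zero_pow (Nat.succ_ne_zero _), zero_mul]
    have h5 : 0 < v u ^ d := pow_pos hU0 d
    linarith
  · have h4 : 0 < B ^ d := pow_pos hBpos d
    linarith

/-- **Root bound** at a nonarchimedean absolute value. -/
theorem abv_le_of_monic_rel_nonarch {v : AbsoluteValue K ℝ} (hv : IsNonarchimedean v) {d : ℕ}
    (b : Fin d → K) (u : K) {B : ℝ} (hB : 0 ≤ B) (hb : ∀ i, v (b i) ≤ B ^ (i.val + 1))
    (h : u ^ d + ∑ i : Fin d, b i * u ^ (d - 1 - i.val) = 0) : v u ≤ B := by
  by_contra hcon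
  rw [not_le] at hcon
  have hU0 : 0 < v u := lt_of_le_of_lt hB hcon
  have hud : u ^ d = -∑ i : Fin d, b i * u ^ (d - 1 - i.val) := eq_neg_of_add_eq_zero_left h
  have hd : d ≠ 0 := by
    rintro rfl
    simp at h
  have key : ∀ i : Fin d, v (b i * u ^ (d - 1 - i.val)) ≤ B * v u ^ (d - 1) := by
    intro i
    rw [map_mul, map_pow]
    have hi : i.val + (d - 1 - i.val) = d - 1 := by
      have := i.isLt
      omega
    calc v (b i) * v u ^ (d - 1 - i.val) ≤ B ^ (i.val + 1) * v u ^ (d - 1 - i.val) :=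
          mul_le_mul_of_nonneg_right (hb i) (pow_nonneg hU0.le _)
      _ = B * (B ^ i.val * v u ^ (d - 1 - i.val)) := by rw [pow_succ]; ring
      _ ≤ B * (v u ^ i.val * v u ^ (d - 1 - i.val)) := by
          refine mul_le_mul_of_nonneg_left ?_ hB
          exact mul_le_mul_of_nonneg_right (pow_le_pow_left₀ hB hcon.le _) (pow_nonneg hU0.le _)
      _ = B * v u ^ (d - 1) := by rw [← pow_add, hi]
  have h1 : v u ^ d ≤ B * v u ^ (d - 1) := by
    calc v u ^ d = v (u ^ d) := (map_pow v u d).symm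
      _ = v (∑ i : Fin d, b i * u ^ (d - 1 - i.val)) := by rw [hud, v.map_neg]
      _ ≤ ⨆ i : Fin d, v (b i * u ^ (d - 1 - i.val)) := hv.apply_sum_univ_le
      _ ≤ B * v u ^ (d - 1) := Real.iSup_le key (mul_nonneg hB (pow_nonneg hU0.le _))
  have h2 : v u ^ d = v u * v u ^ (d - 1) := by
    rw [← pow_succ']
    congr 1
    omega
  have h3 : B * v u ^ (d - 1) < v u * v u ^ (d - 1) :=
    mul_lt_mul_of_pos_right hcon (pow_pos hU0 _)
  linarith

/-- The root bound with the constant of product type: `2 * c` at the archimedean absolute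
values, `1` at the nonarchimedean ones. -/
theorem abv_le_locConst_of_monic_rel (v : AbsoluteValue K ℝ) {d : ℕ} (b : Fin d → K) (u : K)
    {c T : ℝ} (Γ : Multiset K) (hc : 1 ≤ c) (hT : 0 ≤ T)
    (hb : ∀ i, v (b i) ≤ (locConst c Γ v * T) ^ (i.val + 1))
    (h : u ^ d + ∑ i : Fin d, b i * u ^ (d - 1 - i.val) = 0) :
    v u ≤ locConst (2 * c) Γ v * T := by
  have hB : 0 ≤ locConst c Γ v * T := mul_nonneg (locConst_pos hc Γ v).le hT
  by_cases hv : IsNonarchimedean v
  · have h1 := abv_le_of_monic_rel_nonarch hv b u hB hb h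
    rwa [locConst_of_nonarch hv] at h1 ⊢
  · have h1 := abv_le_of_monic_rel v b u hB hb h
    rw [locConst_of_not_nonarch hv] at h1 ⊢
    calc v u ≤ 2 * (c * gamProd Γ v * T) := h1
      _ = 2 * c * gamProd Γ v * T := by ring

section Forms

variable {ι : Type*} [Finite ι]

/-- **Leaf K3** (weighted integral relation): if
`f k ^ e * g ^ d + ∑ i, A i (f) * g ^ (d - 1 - i) = 0` with `A i` a form of degree
`e + j * (i + 1)` and `v (f k)` is the largest of the `v (f i)`, then
`v g ≤ locConst (2 * monoCount A) (famCoeffs A) v * v (f k) ^ j`. -/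
theorem abv_le_of_weighted_rel (v : AbsoluteValue K ℝ) {d e j : ℕ}
    (a : Fin d → MvPolynomial ι K) (ha : ∀ i, (a i).IsHomogeneous (e + j * (i.val + 1)))
    (f : ι → K) (k : ι) (hk : ∀ i, v (f i) ≤ v (f k)) (hfk : f k ≠ 0) (g : K)
    (h : f k ^ e * g ^ d + ∑ i : Fin d, (a i).eval f * g ^ (d - 1 - i.val) = 0) :
    v g ≤ locConst (2 * monoCount a) (famCoeffs a) v * v (f k) ^ j := by
  have : Nonempty ι := ⟨k⟩
  have hFk : 0 < v (f k) := v.pos hfk
  have hS : ⨆ i, v (f i) = v (f k) :=
    le_antisymm (ciSup_le hk) (Finite.le_ciSup (fun i => v (f i)) k)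
  have hc : 1 ≤ monoCount a := one_le_monoCount a
  have hC : 1 ≤ locConst (monoCount a) (famCoeffs a) v := one_le_locConst hc _ v
  have hfe : f k ^ e ≠ 0 := pow_ne_zero e hfk
  -- the monic relation
  have hrel : g ^ d + ∑ i : Fin d, ((a i).eval f / f k ^ e) * g ^ (d - 1 - i.val) = 0 := by
    have h1 : f k ^ e * (g ^ d + ∑ i : Fin d, ((a i).eval f / f k ^ e) * g ^ (d - 1 - i.val)) = 0 := by
      rw [mul_add, Finset.mul_sum, ← h]
      congr 1
      refine Finset.sum_congr rfl fun i _ => ?_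
      field_simp
    exact (mul_eq_zero.mp h1).resolve_left hfe
  refine abv_le_locConst_of_monic_rel v (fun i => (a i).eval f / f k ^ e) g (famCoeffs a) hc
    (pow_nonneg hFk.le j) (fun i => ?_) hrel
  have h2 := abv_eval_le v a i (ha i) f
  rw [hS] at h2
  have hpe : 0 < v (f k) ^ e := pow_pos hFk e
  calc v ((a i).eval f / f k ^ e) = v ((a i).eval f) / v (f k) ^ e := by
        rw [map_div₀, map_pow]
    _ ≤ locConst (monoCount a) (famCoeffs a) v * v (f k) ^ (e + j * (i.val + 1)) / v (f k) ^ e :=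
        div_le_div_of_nonneg_right h2 hpe.le
    _ = locConst (monoCount a) (famCoeffs a) v * (v (f k) ^ j) ^ (i.val + 1) := by
        rw [pow_add, pow_mul]
        field_simp
    _ ≤ locConst (monoCount a) (famCoeffs a) v ^ (i.val + 1) * (v (f k) ^ j) ^ (i.val + 1) :=
        mul_le_mul_of_nonneg_right (le_self_pow₀ hC (Nat.succ_ne_zero _))
          (pow_nonneg (pow_nonneg hFk.le j) _)
    _ = (locConst (monoCount a) (famCoeffs a) v * v (f k) ^ j) ^ (i.val + 1) := (mul_pow _ _ _).symm

/-- The homogeneous integral relation (weight `1`): the form an integral-closure certificate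
takes after homogenising, chart `k`. -/
theorem abv_le_of_homog_rel (v : AbsoluteValue K ℝ) {d e : ℕ}
    (a : Fin d → MvPolynomial ι K) (ha : ∀ i, (a i).IsHomogeneous (e + i.val + 1))
    (f : ι → K) (k : ι) (hk : ∀ i, v (f i) ≤ v (f k)) (hfk : f k ≠ 0) (g : K)
    (h : f k ^ e * g ^ d + ∑ i : Fin d, (a i).eval f * g ^ (d - 1 - i.val) = 0) :
    v g ≤ locConst (2 * monoCount a) (famCoeffs a) v * v (f k) := by
  have ha' : ∀ i, (a i).IsHomogeneous (e + 1 * (i.val + 1)) := by
    intro i
    have h1 : e + 1 * (i.val + 1) = e + i.val + 1 := by ring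
    rw [h1]
    exact ha i
  have h1 := abv_le_of_weighted_rel v a ha' f k hk hfk g h
  rwa [pow_one] at h1

/-- An integral relation whose coefficients are values of forms of degree `i + 1` at a vector
`w`: the root is bounded by the size of `w`. -/
theorem abv_le_of_integral_rel (v : AbsoluteValue K ℝ) {d : ℕ}
    (a : Fin d → MvPolynomial ι K) (ha : ∀ i, (a i).IsHomogeneous (i.val + 1))
    (w : ι → K) (u : K)
    (h : u ^ d + ∑ i : Fin d, (a i).eval w * u ^ (d - 1 - i.val) = 0) :
    v u ≤ locConst (2 * monoCount a) (famCoeffs a) v * ⨆ i, v (w i) := by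
  have hc : 1 ≤ monoCount a := one_le_monoCount a
  have hC : 1 ≤ locConst (monoCount a) (famCoeffs a) v := one_le_locConst hc _ v
  have hS : 0 ≤ ⨆ i, v (w i) := Real.iSup_nonneg fun i => v.nonneg _
  refine abv_le_locConst_of_monic_rel v (fun i => (a i).eval w) u (famCoeffs a) hc hS
    (fun i => ?_) h
  calc v ((a i).eval w) ≤ locConst (monoCount a) (famCoeffs a) v * (⨆ i, v (w i)) ^ (i.val + 1) :=
        abv_eval_le v a i (ha i) w
    _ ≤ locConst (monoCount a) (famCoeffs a) v ^ (i.val + 1) * (⨆ i, v (w i)) ^ (i.val + 1) :=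
        mul_le_mul_of_nonneg_right (le_self_pow₀ hC (Nat.succ_ne_zero _)) (pow_nonneg hS _)
    _ = (locConst (monoCount a) (famCoeffs a) v * ⨆ i, v (w i)) ^ (i.val + 1) :=
        (mul_pow _ _ _).symm

end Forms

end Fermat.Agent.S17.H.Cert
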